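/-
S55 / 45b-CD-ARITH (helper36): the `p`-PRIMARY form of helper63's abstract formation step
(`CDArith63.h3Van_of_formation'`).

The finite-level class field theory (33, 35, 36) only delivers the `p`-primary vanishing of
`H¹(C)` (for `C = J_S / E_S` only the `p`-part of the `S`-class group capitulates in `ℚ_S`;
33 gives the `p`-part of `H¹(Gal(L'/L), C(L'))` for non-`p`-groups) and it is convenient to ask
only `H³(J)[p] = 0`.  This file reproves the two halves of the formation step under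
* `hH3J : H3TorsVan 𝒰 p ρJ`      (instead of `H3Van 𝒰 ρJ`), and
* `hH1C : H1CoprimeVan 𝒰 p ρC`   (every level `1`-cocycle of `C` is killed in `H¹` by an integer
  prime to `p`; instead of the full vanishing of level `H¹(C)`),
and shows that `H1CoprimeVan` follows from the vanishing of the `p`-primary classes
(`H1PrimaryVan`), level `H¹` being torsion.
-/
import Fermat.Agent.S55.CDArith63.Torsion

set_option autoImplicit false
set_option linter.unusedSectionVars false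
set_option linter.unusedVariables false

universe u

namespace Fermat.Agent.S55.CDArith36

open Fermat.Agent.S55.Profin15 Fermat.Agent.S55.CDArith63

variable {G : Type u} [Group G] (𝒰 : LevelStr G)

/-! ### level `H¹` is torsion; `p`-primary vanishing -/

section H1

variable {k : Type*} [CommRing k] {A : Type*} [AddCommGroup A] [Module k A]
  (ρ : Representation k G A)

/-- the `p`-primary classes of level `H¹` vanish: a level `1`-cocycle one of whose `p`-power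
multiples is a coboundary is a coboundary. -/
def H1PrimaryVan (p : ℕ) : Prop :=
  ∀ a : G → A, 𝒰.IsConst₁ a → d12 ρ a = 0 →
    (∃ (n : ℕ) (γ : A), d01 ρ γ = (p ^ n) • a) → ∃ γ : A, d01 ρ γ = a

/-- every class of level `H¹` is killed by an integer prime to `p`. -/
def H1CoprimeVan (p : ℕ) : Prop :=
  ∀ a : G → A, 𝒰.IsConst₁ a → d12 ρ a = 0 →
    ∃ m : ℕ, Nat.Coprime m p ∧ ∃ γ : A, d01 ρ γ = m • a

variable {𝒰 ρ}

theorem d01_neg (x : A) : d01 ρ (-x) = - d01 ρ x := by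
  funext g
  simp only [d01_apply, map_neg, Pi.neg_apply]
  abel

theorem d01_nsmul (n : ℕ) (x : A) : d01 ρ (n • x) = n • d01 ρ x := by
  funext g
  simp only [d01_apply, map_nsmul, Pi.smul_apply, smul_sub]

/-- a level `1`-cocycle is killed in level `H¹` by the index of any level modulo which it is
constant: `[G:U] • a = d⁰ (-∑_{h ∈ G/U} a h)`. -/
theorem exists_nsmul_eq_d01 {a : G → A} (ha : 𝒰.IsConst₁ a) (hda : d12 ρ a = 0) :
    ∃ n : ℕ, 0 < n ∧ ∃ γ : A, d01 ρ γ = n • a := by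
  classical
  obtain ⟨U, hU, hconst⟩ := ha
  haveI := 𝒰.finiteIndex U hU
  haveI : Finite (G ⧸ U) := Subgroup.finite_quotient_of_finiteIndex
  haveI : Fintype (G ⧸ U) := Fintype.ofFinite _
  have hwd : ∀ h h' : G, (QuotientGroup.mk h : G ⧸ U) = QuotientGroup.mk h' → a h = a h' := by
    intro h h' hh
    have hs : h⁻¹ * h' ∈ U := QuotientGroup.eq.1 hh
    have := hconst h (h⁻¹ * h') hs
    rw [mul_inv_cancel_left] at this
    exact this.symm
  let abar : G ⧸ U → A := fun x => a (Quotient.out x)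
  have habar : ∀ h, abar (QuotientGroup.mk h) = a h := by
    intro h
    exact hwd _ _ (QuotientGroup.out_eq' _)
  refine ⟨Fintype.card (G ⧸ U), Fintype.card_pos, -∑ x : G ⧸ U, abar x, ?_⟩
  funext g
  have hsum : ∑ x : G ⧸ U, (ρ g (abar x) - abar (g • x) + a g) = 0 := by
    refine Finset.sum_eq_zero fun x _ => ?_
    induction x using QuotientGroup.induction_on with
    | H j =>
      rw [MulAction.Quotient.smul_mk, habar, habar, smul_eq_mul]
      have := congrFun hda (g, j)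
      simpa using this
  have htrans : ∑ x : G ⧸ U, abar (g • x) = ∑ x : G ⧸ U, abar x :=
    Fintype.sum_equiv (MulAction.toPerm g) _ _ (fun x => rfl)
  simp only [Finset.sum_sub_distrib, Finset.sum_add_distrib, Finset.sum_const, Finset.card_univ,
    htrans, ← map_sum] at hsum
  simp only [d01_apply, map_neg, Pi.smul_apply]
  have h2 : (Fintype.card (G ⧸ U)) • a g
      = - (ρ g (∑ x : G ⧸ U, abar x) - ∑ x : G ⧸ U, abar x) := by
    rw [eq_neg_iff_add_eq_zero, add_comm]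
    exact hsum
  rw [h2]
  abel

/-- `p`-primary vanishing of level `H¹` implies that every class is killed by an integer
prime to `p` (level `H¹` is torsion). -/
theorem h1CoprimeVan_of_primary {p : ℕ} [hp : Fact p.Prime] (h : H1PrimaryVan 𝒰 ρ p) :
    H1CoprimeVan 𝒰 ρ p := by
  intro a ha hda
  obtain ⟨n, hn0, γ, hγ⟩ := exists_nsmul_eq_d01 ha hda
  obtain ⟨e, m, hm, rfl⟩ := Nat.exists_eq_pow_mul_and_not_dvd hn0.ne' p hp.out.ne_one
  have hcop : Nat.Coprime m p := ((Nat.Prime.coprime_iff_not_dvd hp.out).2 hm).symm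
  refine ⟨m, hcop, ?_⟩
  refine h (m • a) (isConst₁_nsmul m ha) (by rw [d12_nsmul, hda, smul_zero]) ⟨e, γ, ?_⟩
  rw [hγ, mul_smul]

end H1

/-! ### the formation step, `p`-primary hypotheses -/

section Formation

variable {p : ℕ} [hp : Fact p.Prime]
  {E J C : Type*} [AddCommGroup E] [AddCommGroup J] [AddCommGroup C]
  (ρE : Representation ℤ G E) (ρJ : Representation ℤ G J) (ρC : Representation ℤ G C)
  (i : E →+ J) (π : J →+ C)
  (hiρ : ∀ g e, i (ρE g e) = ρJ g (i e)) (hπρ : ∀ g x, π (ρJ g x) = ρC g (π x))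
  (hi : Function.Injective i) (hπ : Function.Surjective π) (hπi : ∀ e, π (i e) = 0)
  (hex : ∀ x, π x = 0 → x ∈ Set.range i)
  (hsmJ : IsSmoothRep 𝒰 ρJ)
  {W : Type*} [Fintype W] (w₀ : W) {T : Type*} [AddCommGroup T]
  (invJ : W → (H2 𝒰 ρJ →+ T)) (invC : H2 𝒰 ρC →+ T)
  (hinj : ∀ (x : H2 𝒰 ρJ) (n : ℕ), (p ^ n) • x = 0 → (∀ w, invJ w x = 0) → x = 0)
  (hsurj : ∀ (t : W → T) (n : ℕ), (∀ w, (p ^ n) • t w = 0) →
    ∃ x : H2 𝒰 ρJ, (p ^ n) • x = 0 ∧ ∀ w, invJ w x = t w)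
  (hTdiv : ∀ (t : T) (n : ℕ), (p ^ n) • t = 0 → ∃ t', p • t' = t ∧ (p ^ (n + 1)) • t' = 0)
  (hinjC : ∀ (y : H2 𝒰 ρC) (n : ℕ), (p ^ n) • y = 0 → invC y = 0 → y = 0)
  (hcompat : ∀ x : H2 𝒰 ρJ, invC (mapH2 𝒰 ρJ ρC π hπρ x) = ∑ w, invJ w x)
  (hH1C : H1CoprimeVan 𝒰 ρC p)
  (hH3J : H3TorsVan 𝒰 p ρJ)

include hi hπ hπi hex hsmJ w₀ hsurj hinjC hcompat hH3J hiρ in
/-- `H³(E)[p] = 0` from `H³(J)[p] = 0` -/
theorem h3TorsVan_of_formationP : H3TorsVan 𝒰 p ρE := by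
  intro f hf hdf hpf
  obtain ⟨bJ, hbJ, hdbJ⟩ := hH3J (i ∘ f) (isConst₃_comp hf i) (by
    rw [← map_d34 ρE ρJ i hiρ f, hdf]
    funext x
    simp) (by
    intro x
    simp only [Function.comp_apply, ← map_nsmul, hpf x, map_zero])
  have hcC0 : π ∘ bJ ∈ Z2 𝒰 ρC := by
    refine ⟨hbJ.comp π, ?_⟩
    rw [← map_d23 ρJ ρC π hπρ bJ, hdbJ]
    funext x
    simp [hπi]
  obtain ⟨k, a, hk, hka⟩ := exists_one_mod_primary (p := p) (H2mk 𝒰 ρC ⟨π ∘ bJ, hcC0⟩)
    (H2_torsion _)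
  obtain ⟨x, -, hφx⟩ := mem_range_of_primary (mapH2 𝒰 ρJ ρC π hπρ) invJ invC w₀ hsurj hinjC
    hcompat (k • H2mk 𝒰 ρC ⟨π ∘ bJ, hcC0⟩) a hka
  obtain ⟨cJ, rfl⟩ := H2mk_surjective x
  have hB : k • (π ∘ bJ) - π ∘ (cJ : G × G → J) ∈ B2 𝒰 ρC := by
    have h0 : H2mk 𝒰 ρC (k • ⟨π ∘ bJ, hcC0⟩ - mapZ2 𝒰 ρJ ρC π hπρ cJ) = 0 := by
      rw [map_sub, map_nsmul, ← mapH2_mk, hφx, sub_self]
    have := (H2mk_eq_zero_iff _).1 h0
    simpa using this
  obtain ⟨aC, haC, hdaC⟩ := hB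
  obtain ⟨aJ, haJ, hπaJ⟩ := exists_lift₁ hπ haC
  set bJ'' : G × G → J := k • bJ - (cJ : G × G → J) - d12 ρJ aJ with hbJ''
  have hbJ''c : 𝒰.IsConst₂ bJ'' :=
    isConst₂_sub (isConst₂_sub (isConst₂_nsmul k hbJ) cJ.2.1) (hsmJ.isConst₂_d12 haJ)
  have hπb : ∀ x, π (bJ'' x) = 0 := by
    intro x
    have h1 : π ∘ bJ'' = k • (π ∘ bJ) - π ∘ (cJ : G × G → J) - d12 ρC (π ∘ aJ) := by
      rw [← map_d12 ρJ ρC π hπρ aJ]
      funext y
      simp [hbJ'']
    have h2 : π ∘ bJ'' = 0 := by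
      rw [h1, hπaJ, hdaC, sub_self]
    exact congrFun h2 x
  obtain ⟨bE, hbE, hibE⟩ := exists_pull₂ (i := (i : E → J)) hbJ''c (fun x => hex _ (hπb x))
  refine ⟨bE, hbE, ?_⟩
  have hkf : k • (i ∘ f) = i ∘ f := by
    funext x
    simp only [Pi.smul_apply, Function.comp_apply, ← map_nsmul,
      nsmul_eq_self_of_mod hk (hpf x)]
  have hkey : i ∘ d23 ρE bE = i ∘ f := by
    rw [map_d23 ρE ρJ i hiρ bE, hibE, hbJ'', d23_sub, d23_sub, d23_d12, cJ.2.2, d23_nsmul, hdbJ,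
      hkf]
    simp
  funext x
  exact hi (congrFun hkey x)

include hi hπ hπi hex hsmJ w₀ hinj hsurj hTdiv hinjC hcompat hH1C hiρ in
/-- `H²(E)/p = 0` when level `H¹(C)` has no `p`-primary part -/
theorem h2DivBy_of_formationP : H2DivBy 𝒰 p ρE := by
  intro c hc hdc
  have hcJ : i ∘ c ∈ Z2 𝒰 ρJ := comp_mem_Z2 ρE ρJ i hiρ ⟨hc, hdc⟩
  have hφ0 : mapH2 𝒰 ρJ ρC π hπρ (H2mk 𝒰 ρJ ⟨i ∘ c, hcJ⟩) = 0 := by
    rw [mapH2_mk]
    have : mapZ2 𝒰 ρJ ρC π hπρ ⟨i ∘ c, hcJ⟩ = 0 := by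
      apply Subtype.ext
      funext x
      simp [hπi]
    rw [this, map_zero]
  obtain ⟨z, hz0, hpz⟩ := exists_div_of_mem_ker (mapH2 𝒰 ρJ ρC π hπρ) invJ invC w₀ H2_torsion hinj
    hsurj hTdiv hinjC hcompat _ hφ0
  obtain ⟨zJ, rfl⟩ := H2mk_surjective z
  have hB1 : π ∘ (zJ : G × G → J) ∈ B2 𝒰 ρC := by
    rw [mapH2_mk] at hz0
    have := (H2mk_eq_zero_iff _).1 hz0
    simpa using this
  have hB2 : p • (zJ : G × G → J) - i ∘ c ∈ B2 𝒰 ρJ := by
    have h0 : H2mk 𝒰 ρJ (p • zJ - ⟨i ∘ c, hcJ⟩) = 0 := by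
      rw [map_sub, map_nsmul, hpz, sub_self]
    have := (H2mk_eq_zero_iff _).1 h0
    simpa using this
  obtain ⟨aC, haC, hdaC⟩ := hB1
  obtain ⟨aJ, haJ, hπaJ⟩ := exists_lift₁ hπ haC
  -- correct `zJ` so that it comes from `E`
  set zJ' : G × G → J := (zJ : G × G → J) - d12 ρJ aJ with hzJ'
  have hzJ'c : 𝒰.IsConst₂ zJ' := isConst₂_sub zJ.2.1 (hsmJ.isConst₂_d12 haJ)
  have hπz : ∀ x, π (zJ' x) = 0 := by
    intro x
    have h1 : π ∘ zJ' = π ∘ (zJ : G × G → J) - d12 ρC (π ∘ aJ) := by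
      rw [← map_d12 ρJ ρC π hπρ aJ]
      funext y
      simp [hzJ']
    have h2 : π ∘ zJ' = 0 := by rw [h1, hπaJ, hdaC, sub_self]
    exact congrFun h2 x
  obtain ⟨c', hc', hic'⟩ := exists_pull₂ (i := (i : E → J)) hzJ'c (fun x => hex _ (hπz x))
  have hdc' : d23 ρE c' = 0 := by
    have hkey : i ∘ d23 ρE c' = 0 := by
      rw [map_d23 ρE ρJ i hiρ c', hic', hzJ', d23_sub, d23_d12, zJ.2.2, sub_zero]
    funext x
    have := congrFun hkey x
    simp only [Function.comp_apply, Pi.zero_apply] at this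
    exact hi (by rw [this]; simp)
  -- the difference `p • c' - c` is a coboundary in `J`
  obtain ⟨αJ0, hαJ0, hdαJ0⟩ := hB2
  set αJ : G → J := αJ0 - p • aJ with hαJ
  have hαJc : 𝒰.IsConst₁ αJ := isConst₁_sub hαJ0 (isConst₁_nsmul p haJ)
  have hdαJ : d12 ρJ αJ = i ∘ (p • c' - c) := by
    rw [hαJ, d12_sub, d12_nsmul, hdαJ0]
    have : i ∘ (p • c' - c) = p • (i ∘ c') - i ∘ c := by
      funext x
      simp
    rw [this, hic', hzJ', smul_sub]
    abel
  have hπα : d12 ρC (π ∘ αJ) = 0 := by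
    rw [← map_d12 ρJ ρC π hπρ αJ, hdαJ]
    funext x
    simp [hπi]
  -- here only a prime-to-`p` multiple of the `1`-cocycle `π ∘ αJ` is a coboundary
  obtain ⟨m, hm, γ, hγ⟩ := hH1C (π ∘ αJ) (hαJc.comp π) hπα
  obtain ⟨γJ, hγJ⟩ := hπ γ
  set αJ' : G → J := m • αJ - d01 ρJ γJ with hαJ'
  have hαJ'c : 𝒰.IsConst₁ αJ' := isConst₁_sub (isConst₁_nsmul m hαJc) (hsmJ.isConst₁_d01 γJ)
  have hπα' : ∀ g, π (αJ' g) = 0 := by
    intro g
    have h1 : π ∘ αJ' = m • (π ∘ αJ) - d01 ρC (π γJ) := by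
      rw [← map_d01 ρJ ρC π hπρ γJ]
      funext y
      simp [hαJ']
    have h2 : π ∘ αJ' = 0 := by rw [h1, hγJ, hγ, sub_self]
    exact congrFun h2 g
  obtain ⟨αE, hαE, hiαE⟩ := exists_pull₁ (i := (i : E → J)) hαJ'c (fun g => hex _ (hπα' g))
  have hdαE : d12 ρE αE = m • (p • c' - c) := by
    have hkey : i ∘ d12 ρE αE = i ∘ (m • (p • c' - c)) := by
      rw [map_d12 ρE ρJ i hiρ αE, hiαE, hαJ', d12_sub, d12_d01, sub_zero, d12_nsmul, hdαJ]
      funext x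
      simp
    funext x
    exact hi (congrFun hkey x)
  -- `s * m = 1 + t * p`
  obtain ⟨s, -, hs⟩ := Nat.exists_mul_mod_eq_one_of_coprime hm hp.out.one_lt
  set t : ℕ := (m * s) / p with ht
  have hst : m * s = 1 + p * t := by
    have h0 := Nat.div_add_mod (m * s) p
    rw [hs, ← ht] at h0
    omega
  refine ⟨c' + t • (p • c' - c), -(s • αE), ?_, ?_, ?_, ?_⟩
  · exact hc'.add (isConst₂_nsmul t (isConst₂_sub (isConst₂_nsmul p hc') hc))
  · rw [d23_add, d23_nsmul, d23_sub, d23_nsmul, hdc', hdc]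
    simp
  · exact (isConst₁_nsmul s hαE).comp (fun x => -x)
  · rw [d12_neg, d12_nsmul, hdαE, smul_smul, mul_comm s m, hst, add_smul, one_smul, mul_smul,
      smul_add]
    abel

include hi hπ hπi hex hsmJ w₀ hinj hsurj hTdiv hinjC hcompat hH1C hH3J hiρ in
/-- **45b, abstract core, `p`-primary final form.**  Same conclusion as helper63's
`h3Van_of_formation'`, with `H³(J)[p] = 0` and the prime-to-`p` form of `H¹(C)(p) = 0`. -/
theorem h3Van_of_formationP (hsmE : IsSmoothRep 𝒰 ρE)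
    {k : Type*} [CommRing k] {A : Type*} [AddCommGroup A] [Module k A]
    (ρA : Representation k G A) (j : A →+ E) (hj : Function.Injective j)
    (hjρ : ∀ g a, j (ρA g a) = ρE g (j a)) (hpA : ∀ a : A, p • a = 0)
    (hjp : ∀ e : E, p • e = 0 → e ∈ Set.range j) (hdiv : ∀ e : E, ∃ e', p • e' = e) :
    H3Van 𝒰 ρA :=
  h3Van_of_kummer p ρE hsmE ρA j hj hjρ hpA hjp hdiv
    (h3TorsVan_of_formationP 𝒰 ρE ρJ ρC i π hiρ hπρ hi hπ hπi hex hsmJ w₀ invJ invC hsurj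
      hinjC hcompat hH3J)
    (h2DivBy_of_formationP 𝒰 ρE ρJ ρC i π hiρ hπρ hi hπ hπi hex hsmJ w₀ invJ invC hinj
      hsurj hTdiv hinjC hcompat hH1C)

end Formation

end Fermat.Agent.S55.CDArith36
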